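import Fermat.Agent.S52.Fam.Seams
import Fermat.Agent.S52.Geom.Seams
import Fermat.Agent.S52.NOS.Short
import Fermat.Agent.S52.SPEC.Final
import Fermat.Agent.S52.COP.Main
import Fermat.Agent.S52.RED.Main
import Fermat.Agent.S52.UTR.Five
import Fermat.Agent.S52.AP.Seam
import Fermat.Agent.S52.IRR3.Main
import Fermat.Agent.S52.HIT.Seam

/-!
# S52: the final glue of the function-field half (helper25)

`s52_geom_of_U : s52_U_stmt → s52_SpecP_stmt → s52_CopP_stmt → s52_Red_stmt → s52_Geom_stmt`,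
`s52_specP`, `s52_copP` (closed by the landed [SPEC], [COP]), and
`s52_main_of_U : s52_U_stmt → (the frozen statement S52)`: **(U) is the only seam left**.

* `s52_H25 a b` : for `a b : ℚ[s]`, the curve `y² = x³ + a x + b` has (at least) 25 points killed
  by `5` over `ℚ̄(s) = RatFunc ℚ̄` (i.e. the whole 5-torsion is rational over `ℚ̄(s)`);
* `s52_U_stmt` **(U)**: the output of the Laurent-series construction: a family through
  `(a₀, b₀)` at `s = 0` with `s52_H25` and generically no `3`-isogeny;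
* `s52_SpecP_stmt` **[SPEC]**: two good rational fibres of an `H25`-family have isomorphic `E[5]`;
* `s52_CopP_stmt` **[COP]**: an `H25`-family is `(λ⁴ a', λ⁶ b')` with `a'` prime to the
  discriminant of `(a', b')`.
-/

set_option autoImplicit false

namespace Fermat.Agent.S52

open WeierstrassCurve Polynomial
open scoped WeierstrassCurve.Affine

open Classical in
/-- the curve `y² = x³ + a x + b`, `a b : ℚ[s]`, has at least 25 points killed by `5` over
`ℚ̄(s)` -/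
def s52_H25 (a b : Polynomial ℚ) : Prop :=
  25 ≤ Nat.card {P : (s52n_short (s52w_iota a) (s52w_iota b)).toAffine.Point // 5 • P = 0}

/-- **(U)** -/
def s52_U_stmt : Prop :=
  ∀ a₀ b₀ : ℚ, a₀ ≠ 0 → b₀ ≠ 0 → 4 * a₀ ^ 3 + 27 * b₀ ^ 2 ≠ 0 →
    ∃ a b : Polynomial ℚ, a.eval 0 = a₀ ∧ b.eval 0 = b₀ ∧ s52_H25 a b ∧
      ∀ h : RatFunc ℚ,
        (h + 27) * (h + 3) ^ 3 * (4 * (algebraMap (Polynomial ℚ) (RatFunc ℚ) a) ^ 3
            + 27 * (algebraMap (Polynomial ℚ) (RatFunc ℚ) b) ^ 2)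
          ≠ 1728 * 4 * (algebraMap (Polynomial ℚ) (RatFunc ℚ) a) ^ 3 * h

/-- **[SPEC]** (polynomial form) -/
def s52_SpecP_stmt : Prop :=
  ∀ a b : Polynomial ℚ, s52_H25 a b → ∀ c₁ c₂ : ℚ,
    4 * (a.eval c₁) ^ 3 + 27 * (b.eval c₁) ^ 2 ≠ 0 →
    4 * (a.eval c₂) ^ 3 + 27 * (b.eval c₂) ^ 2 ≠ 0 →
    s52_TorsIso (s52_short (a.eval c₁) (b.eval c₁)) (s52_short (a.eval c₂) (b.eval c₂)) 5

/-- **[COP]** (polynomial form) -/
def s52_CopP_stmt : Prop :=
  ∀ a b : Polynomial ℚ, 4 * a ^ 3 + 27 * b ^ 2 ≠ 0 → s52_H25 a b →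
    ∃ lam a' b' : Polynomial ℚ, lam ≠ 0 ∧ a = lam ^ 4 * a' ∧ b = lam ^ 6 * b' ∧
      IsCoprime a' (4 * a' ^ 3 + 27 * b' ^ 2)

/-- **[GEOM] from (U), [SPEC], [COP], [RED].** -/
theorem s52_geom_of_U (hU : s52_U_stmt) (hS : s52_SpecP_stmt) (hC : s52_CopP_stmt)
    (hR : s52_Red_stmt) : s52_Geom_stmt := by
  intro c4 c6 hc4 hc6 hdisc _hirr
  have ha₀ : -c4 / 48 ≠ 0 := by
    intro h; apply hc4; linarith
  have hb₀ : -c6 / 864 ≠ 0 := by
    intro h; apply hc6; linarith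
  have hΔ₀ : 4 * (-c4 / 48) ^ 3 + 27 * (-c6 / 864) ^ 2 ≠ 0 := by
    intro h; apply hdisc; linear_combination (-27648 : ℚ) * h
  obtain ⟨a, b, ha0, hb0, h25, hroot⟩ := hU _ _ ha₀ hb₀ hΔ₀
  have hΔab : 4 * a ^ 3 + 27 * b ^ 2 ≠ 0 := by
    intro h
    have := congrArg (Polynomial.eval 0) h
    simp only [eval_add, eval_mul, eval_pow, eval_ofNat, eval_zero, ha0, hb0] at this
    exact hΔ₀ this
  obtain ⟨lam, a', b', hlam, hla, hlb, hcop⟩ := hC a b hΔab h25
  -- `lam(0) ≠ 0`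
  set μ : ℚ := lam.eval 0 with hμdef
  have hμ : μ ≠ 0 := by
    intro h0
    apply ha₀
    rw [← ha0, hla, eval_mul, eval_pow, ← hμdef, h0]
    ring
  have ha'0 : μ ^ 4 * a'.eval 0 = -c4 / 48 := by
    rw [← ha0, hla, eval_mul, eval_pow]
  have hb'0 : μ ^ 6 * b'.eval 0 = -c6 / 864 := by
    rw [← hb0, hlb, eval_mul, eval_pow]
  -- the normalised invariants
  refine ⟨C (-48 * μ ^ 4) * a', C (-864 * μ ^ 6) * b', ?_, ?_, ?_, ?_, ?_⟩
  · rw [coeff_zero_eq_eval_zero, eval_mul, eval_C]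
    linear_combination (-48 : ℚ) * ha'0
  · rw [coeff_zero_eq_eval_zero, eval_mul, eval_C]
    linear_combination (-864 : ℚ) * hb'0
  · -- coprimality
    have hu4 : IsUnit (C (-48 * μ ^ 4) : Polynomial ℚ) :=
      Polynomial.isUnit_C.2 (isUnit_iff_ne_zero.2 (mul_ne_zero (by norm_num) (pow_ne_zero 4 hμ)))
    have hu12 : IsUnit (C (-27648 * μ ^ 12) : Polynomial ℚ) :=
      Polynomial.isUnit_C.2 (isUnit_iff_ne_zero.2 (mul_ne_zero (by norm_num) (pow_ne_zero 12 hμ)))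
    have e : (C (-48 * μ ^ 4) * a') ^ 3 - (C (-864 * μ ^ 6) * b') ^ 2 =
        C (-27648 * μ ^ 12) * (4 * a' ^ 3 + 27 * b' ^ 2) := by
      simp only [map_mul, map_neg, map_pow, map_ofNat]
      ring
    rw [e]
    exact (isCoprime_mul_unit_left_left hu4 _ _).2 ((isCoprime_mul_unit_left_right hu12 _ _).2 hcop)
  · -- generic absence of a 3-isogeny
    intro h hh
    apply hroot h
    have hev : eval h ((s52_quartic (C (-48 * μ ^ 4) * a') (C (-864 * μ ^ 6) * b')).map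
        (algebraMap (Polynomial ℚ) (RatFunc ℚ))) =
        (h + 27) * (h + 3) ^ 3 *
          ((algebraMap (Polynomial ℚ) (RatFunc ℚ) (C (-48 * μ ^ 4) * a')) ^ 3
          - (algebraMap (Polynomial ℚ) (RatFunc ℚ) (C (-864 * μ ^ 6) * b')) ^ 2)
          - 1728 * (algebraMap (Polynomial ℚ) (RatFunc ℚ) (C (-48 * μ ^ 4) * a')) ^ 3 * h := by
      simp [s52_quartic, map_ofNat]
    rw [hev] at hh
    set φ := algebraMap (Polynomial ℚ) (RatFunc ℚ) with hφ
    have hlamK : φ lam ≠ 0 := (map_ne_zero_iff _ (RatFunc.algebraMap_injective ℚ)).2 hlam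
    have hμK : φ (C μ) ≠ 0 :=
      (map_ne_zero_iff _ (RatFunc.algebraMap_injective ℚ)).2 (by simpa using hμ)
    have e4 : φ (C (-48 * μ ^ 4) * a') = -48 * (φ (C μ)) ^ 4 * φ a' := by
      simp only [map_mul, map_neg, map_pow, map_ofNat]
    have e6 : φ (C (-864 * μ ^ 6) * b') = -864 * (φ (C μ)) ^ 6 * φ b' := by
      simp only [map_mul, map_neg, map_pow, map_ofNat]
    have ea : φ a = (φ lam) ^ 4 * φ a' := by rw [hla, map_mul, map_pow]
    have eb : φ b = (φ lam) ^ 6 * φ b' := by rw [hlb, map_mul, map_pow]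
    rw [e4, e6] at hh
    rw [ea, eb]
    have h12 : (φ (C μ)) ^ 12 ≠ 0 := pow_ne_zero 12 hμK
    -- both sides are proportional
    have key : (-27648 : RatFunc ℚ) * (φ (C μ)) ^ 12 *
        ((h + 27) * (h + 3) ^ 3 * (4 * ((φ lam) ^ 4 * φ a') ^ 3 + 27 * ((φ lam) ^ 6 * φ b') ^ 2)
          - 1728 * 4 * ((φ lam) ^ 4 * φ a') ^ 3 * h) = 0 := by
      linear_combination (φ lam) ^ 12 * hh
    rcases mul_eq_zero.1 key with h1 | h1
    · exact absurd h1 (mul_ne_zero (by norm_num) h12)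
    · exact sub_eq_zero.1 h1
  · -- the specialisations
    refine ⟨lam.roots.toFinset, fun c hc hΔc => ?_⟩
    have hlamc : lam.eval c ≠ 0 := by
      intro h0
      exact hc (Multiset.mem_toFinset.2 ((mem_roots hlam).2 h0))
    simp only [eval_mul, eval_C] at hΔc ⊢
    have hΔ'c : 4 * (a'.eval c) ^ 3 + 27 * (b'.eval c) ^ 2 ≠ 0 := by
      intro h; apply hΔc; linear_combination (-27648 : ℚ) * μ ^ 12 * h
    have hac : a.eval c = (lam.eval c) ^ 4 * a'.eval c := by rw [hla, eval_mul, eval_pow]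
    have hbc : b.eval c = (lam.eval c) ^ 6 * b'.eval c := by rw [hlb, eval_mul, eval_pow]
    have hΔc2 : 4 * (a.eval c) ^ 3 + 27 * (b.eval c) ^ 2 ≠ 0 := by
      rw [hac, hbc]
      intro h
      apply hΔ'c
      have h12 : (lam.eval c) ^ 12 ≠ 0 := pow_ne_zero 12 hlamc
      apply mul_left_cancel₀ h12
      linear_combination h
    have hΔ02 : 4 * (a.eval 0) ^ 3 + 27 * (b.eval 0) ^ 2 ≠ 0 := by rw [ha0, hb0]; exact hΔ₀
    have iso1 := hS a b h25 0 c hΔ02 hΔc2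
    rw [ha0, hb0] at iso1
    -- rescale the fibre at `c`
    set ν : ℚ := μ / lam.eval c with hν
    have hνne : ν ≠ 0 := div_ne_zero hμ hlamc
    obtain ⟨Cv, hCv⟩ := s52_short_scale (a.eval c) (b.eval c) ν hνne
    have iso2 := hR.1 _ _ ⟨Cv, hCv⟩ 5
    have e : s52_curve (-48 * μ ^ 4 * a'.eval c) (-864 * μ ^ 6 * b'.eval c) =
        s52_short (ν ^ 4 * a.eval c) (ν ^ 6 * b.eval c) := by
      simp only [s52_curve, hac, hbc, hν]
      congr 1 <;> field_simp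
    rw [e]
    exact iso1.trans iso2

/-- **[SPEC]** is closed by helper15's `s52p_main`. -/
theorem s52_specP : s52_SpecP_stmt := by
  intro a b h25 c₁ c₂ h₁ h₂
  classical
  exact s52p_main a b h25 c₁ c₂ h₁ h₂

/-- **[COP]** is closed by helper10's `s52c_main`. -/
theorem s52_copP : s52_CopP_stmt := by
  intro a b hΔ h25
  classical
  exact s52c_main a b hΔ h25

/-- **[GEOM] from (U) alone.** -/
theorem s52_geom_of_U' (hU : s52_U_stmt) : s52_Geom_stmt :=
  s52_geom_of_U hU s52_specP s52_copP s52d_red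

/-- **[FAMILY] from (U) alone.** -/
theorem s52_family_of_U (hU : s52_U_stmt) : s52_Family_stmt :=
  s52_family_of (s52_geom_of_U' hU) s52d_red

/-- **S52 from (U) alone**: every other seam ([AP], [IRR3], [HIT], [SS], [J], [RED], [SPEC],
[COP]) is closed on main. -/
theorem s52_main_of_U (hU : s52_U_stmt)
    (W : WeierstrassCurve ℤ) (hΔ : W.Δ ≠ 0) (hW : W.IsSemistableModel)
    (h5 : W.ModRepIsIrreducible 5) :
    ∃ W' : WeierstrassCurve ℤ, W'.Δ ≠ 0 ∧ W'.IsSemistableModel ∧ W'.ModRepIsIrreducible 3 ∧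
      ∀ ℓ : ℕ, ℓ.Prime → W.IsGoodPrimeFor ℓ → W'.IsGoodPrimeFor ℓ → ℓ ≠ 5 →
        (5 : ℤ) ∣ (W'.apOfModel ℓ - W.apOfModel ℓ) :=
  s52_main s52a_AP s52i_main s52h_HIT (s52_family_of_U hU) W hΔ hW h5

end Fermat.Agent.S52
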